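import Mathlib
import Fermat.Agent.Lib.Haupt.Laurent
import Fermat.Agent.S28.H88.Degree
import Fermat.Agent.S28.H25.PrimeLevelPolys

/-!
# S18 / node_coord (helper143): the Hauptmoduln lie in the function field

For every field `k` in which `2` (resp. `3`) is invertible:

* `t2_mem_pair k : t2 k ∈ k(j, j(q²))`, `t2_mem_fullC k M (2 ∣ M) : t2 k ∈ modularFunctionFieldFullC k M`
* `t3_mem_pair k : t3 k ∈ k(j, j(q³))`, `t3_mem_fullC k M (3 ∣ M) : t3 k ∈ modularFunctionFieldFullC k M`

(`t2`, `t3` = `Fermat.Agent.Lib.Haupt.t2`, `t3` of helper637.)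

Proof (degree argument): `k(j, j_p) ⊆ k(j, t_p)` by the second Hauptmodul relation,
`[k(j, t_p) : k(j)] ≤ p + 1` by the first one, and `[k(j, j_p) : k(j)] = p + 1` (landed S28,
`h88_natDegree_minpoly_jp`).
-/

set_option autoImplicit false

noncomputable section

namespace Fermat.Agent.S18.H143

open ModularCurve IntermediateField Polynomial
open Fermat.Agent.S28 (jField)
open Fermat.Agent.Lib.Haupt (t2 t3)

variable (k : Type*) [Field k]

/-- The degree argument. -/
theorem mem_adjoin_pair_of_root (p : ℕ) [NeZero p] (hp : p.Prime) (hpk : (p : k) ≠ 0)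
    (t : LaurentSeries k) (P : Polynomial (jField k)) (hP : P.Monic)
    (hdeg : P.natDegree = p + 1) (hroot : Polynomial.aeval t P = 0)
    (hj : qExpand k p (jqModC k) ∈ IntermediateField.adjoin (jField k) {t}) :
    t ∈ IntermediateField.adjoin k {jqModC k, qExpand k p (jqModC k)} := by
  obtain ⟨Φ⟩ := Fermat.Agent.S28.H25.nonempty_modPolyData p hp
  obtain ⟨W⟩ := Fermat.Agent.S28.H25.nonempty_unitPolyData p hp
  have hdegj := Fermat.Agent.S28.h88_natDegree_minpoly_jp k p hpk hp.one_lt Φ W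
    Fermat.Agent.S28.H25.theta_identity
  have hintj : IsIntegral (jField k) (qExpand k p (jqModC k)) :=
    Fermat.Agent.S28.h88_isIntegral_jp k p Φ
  have hintt : IsIntegral (jField k) t := ⟨P, hP, hroot⟩
  have hAB : (jField k)⟮qExpand k p (jqModC k)⟯ ≤ (jField k)⟮t⟯ := by
    rw [IntermediateField.adjoin_le_iff]
    rintro x hx
    rw [Set.mem_singleton_iff] at hx
    subst hx
    exact hj
  have hfinA : Module.finrank (jField k) (jField k)⟮qExpand k p (jqModC k)⟯ = p + 1 := by
    rw [IntermediateField.adjoin.finrank hintj, hdegj]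
  have hfinB : Module.finrank (jField k) (jField k)⟮t⟯ ≤ p + 1 := by
    rw [IntermediateField.adjoin.finrank hintt, ← hdeg]
    exact Polynomial.natDegree_le_of_dvd (minpoly.dvd _ t hroot) hP.ne_zero
  have : FiniteDimensional (jField k) (jField k)⟮t⟯ :=
    IntermediateField.adjoin.finiteDimensional hintt
  have hEq : (jField k)⟮qExpand k p (jqModC k)⟯ = (jField k)⟮t⟯ :=
    IntermediateField.eq_of_le_of_finrank_le hAB (by rw [hfinA]; exact hfinB)
  have ht : t ∈ (jField k)⟮qExpand k p (jqModC k)⟯ := by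
    rw [hEq]
    exact IntermediateField.mem_adjoin_simple_self _ t
  have hres := IntermediateField.adjoin_adjoin_left k {jqModC k} {qExpand k p (jqModC k)}
  have ht' : t ∈ IntermediateField.restrictScalars k
      (IntermediateField.adjoin (↥(IntermediateField.adjoin k {jqModC k}))
        {qExpand k p (jqModC k)}) := ht
  rw [hres] at ht'
  exact ht'

theorem pair_le_fullC (p M : ℕ) [NeZero p] [NeZero M] (hpM : p ∣ M) :
    IntermediateField.adjoin k {jqModC k, qExpand k p (jqModC k)} ≤
      modularFunctionFieldFullC k M := by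
  rw [IntermediateField.adjoin_le_iff]
  rintro x hx
  rcases hx with rfl | hx
  · have h := mem_divisorExpansionsC k M (one_dvd M)
    rw [qExpand_one_apply] at h
    exact IntermediateField.subset_adjoin _ _ h
  · rw [Set.mem_singleton_iff] at hx
    subst hx
    exact IntermediateField.subset_adjoin _ _ (mem_divisorExpansionsC k M hpM)


/-- `j` as an element of `k(j)`. -/
def jK : jField k := ⟨jqModC k, Fermat.Agent.S28.h88_jqModC_mem_jField k⟩

theorem coe_jK : ((jK k : jField k) : LaurentSeries k) = jqModC k := rfl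

theorem ofNat_mem_adjoin (K : IntermediateField (jField k) (LaurentSeries k)) (n : ℕ) :
    ((n : ℕ) : LaurentSeries k) ∈ K := IntermediateField.natCast_mem K n

/-! ### Level 2 -/

/-- The cubic of `t₂` over `k(j)`. -/
def cubic2 : Polynomial (jField k) :=
  X ^ 3 + C (768 - jK k) * X ^ 2 + C 196608 * X + C 16777216

theorem cubic2_monic : (cubic2 k).Monic := by
  unfold cubic2
  monicity!

theorem cubic2_natDegree : (cubic2 k).natDegree = 3 := by
  unfold cubic2
  compute_degree!

theorem cubic2_aeval : Polynomial.aeval (t2 k) (cubic2 k) = 0 := by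
  have h := Fermat.Agent.Lib.Haupt.t2_cubic k
  unfold cubic2
  simp only [map_add, map_mul, map_pow, Polynomial.aeval_X, Polynomial.aeval_C, map_sub,
    map_ofNat]
  rw [IntermediateField.algebraMap_apply, coe_jK]
  exact h

theorem jq2_mem_adjoin_t2 :
    qExpand k 2 (jqModC k) ∈ IntermediateField.adjoin (jField k) {t2 k} := by
  have h := Fermat.Agent.Lib.Haupt.jq2_mul_t2 k
  have ht : t2 k ≠ 0 := Fermat.Agent.Lib.Haupt.t2_ne_zero k
  have h' : qExpand k 2 (jqModC k) = (t2 k + ((16 : ℕ) : LaurentSeries k)) ^ 3 * (t2 k)⁻¹ := by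
    rw [eq_mul_inv_iff_mul_eq₀ ht, h]
    norm_num
  rw [h']
  have hmem : t2 k ∈ IntermediateField.adjoin (jField k) {t2 k} :=
    IntermediateField.mem_adjoin_simple_self _ _
  exact mul_mem (pow_mem (add_mem hmem (ofNat_mem_adjoin k _ 16)) 3) (inv_mem hmem)

/-- `t₂ ∈ k(j, j(q²))` when `2` is invertible in `k`. -/
theorem t2_mem_pair (h2 : (2 : k) ≠ 0) :
    t2 k ∈ IntermediateField.adjoin k {jqModC k, qExpand k 2 (jqModC k)} :=
  mem_adjoin_pair_of_root k 2 Nat.prime_two (by exact_mod_cast h2) (t2 k) (cubic2 k)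
    (cubic2_monic k) (cubic2_natDegree k) (cubic2_aeval k) (jq2_mem_adjoin_t2 k)

/-- `t₂` lies in the function field of `X₀(M)` over `k` when `2 ∣ M` and `2` is invertible. -/
theorem t2_mem_fullC (h2 : (2 : k) ≠ 0) (M : ℕ) [NeZero M] (hM : 2 ∣ M) :
    t2 k ∈ modularFunctionFieldFullC k M :=
  pair_le_fullC k 2 M hM (t2_mem_pair k h2)

/-! ### Level 3 -/

/-- The quartic of `t₃` over `k(j)`. -/
def quartic3 : Polynomial (jField k) :=
  X ^ 4 + C (756 - jK k) * X ^ 3 + C 196830 * X ^ 2 + C 19131876 * X + C 387420489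

theorem quartic3_monic : (quartic3 k).Monic := by
  unfold quartic3
  monicity!

theorem quartic3_natDegree : (quartic3 k).natDegree = 4 := by
  unfold quartic3
  compute_degree!

theorem quartic3_aeval : Polynomial.aeval (t3 k) (quartic3 k) = 0 := by
  have h := Fermat.Agent.Lib.Haupt.t3_quartic k
  unfold quartic3
  simp only [map_add, map_mul, map_pow, Polynomial.aeval_X, Polynomial.aeval_C, map_sub,
    map_ofNat]
  rw [IntermediateField.algebraMap_apply, coe_jK]
  exact h

theorem jq3_mem_adjoin_t3 :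
    qExpand k 3 (jqModC k) ∈ IntermediateField.adjoin (jField k) {t3 k} := by
  have h := Fermat.Agent.Lib.Haupt.jq3_mul_t3 k
  have ht : t3 k ≠ 0 := Fermat.Agent.Lib.Haupt.t3_ne_zero k
  have h' : qExpand k 3 (jqModC k) =
      ((t3 k + ((27 : ℕ) : LaurentSeries k)) * (t3 k + ((3 : ℕ) : LaurentSeries k)) ^ 3) *
        (t3 k)⁻¹ := by
    rw [eq_mul_inv_iff_mul_eq₀ ht, h]
    norm_num
  rw [h']
  have hmem : t3 k ∈ IntermediateField.adjoin (jField k) {t3 k} :=
    IntermediateField.mem_adjoin_simple_self _ _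
  exact mul_mem (mul_mem (add_mem hmem (ofNat_mem_adjoin k _ 27))
    (pow_mem (add_mem hmem (ofNat_mem_adjoin k _ 3)) 3)) (inv_mem hmem)

/-- `t₃ ∈ k(j, j(q³))` when `3` is invertible in `k`. -/
theorem t3_mem_pair (h3 : (3 : k) ≠ 0) :
    t3 k ∈ IntermediateField.adjoin k {jqModC k, qExpand k 3 (jqModC k)} :=
  mem_adjoin_pair_of_root k 3 Nat.prime_three (by exact_mod_cast h3) (t3 k) (quartic3 k)
    (quartic3_monic k) (quartic3_natDegree k) (quartic3_aeval k) (jq3_mem_adjoin_t3 k)

/-- `t₃` lies in the function field of `X₀(M)` over `k` when `3 ∣ M` and `3` is invertible. -/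
theorem t3_mem_fullC (h3 : (3 : k) ≠ 0) (M : ℕ) [NeZero M] (hM : 3 ∣ M) :
    t3 k ∈ modularFunctionFieldFullC k M :=
  pair_le_fullC k 3 M hM (t3_mem_pair k h3)

/-! ### Over `ℚ` -/

theorem t2_mem_full (M : ℕ) [NeZero M] (hM : 2 ∣ M) : t2 ℚ ∈ modularFunctionFieldFull M :=
  t2_mem_fullC ℚ (by norm_num) M hM

theorem t3_mem_full (M : ℕ) [NeZero M] (hM : 3 ∣ M) : t3 ℚ ∈ modularFunctionFieldFull M :=
  t3_mem_fullC ℚ (by norm_num) M hM

end Fermat.Agent.S18.H143
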