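import Mathlib
import Fermat.Agent.S18.H143.Member
import Fermat.Agent.S18.Mod.Defs

/-!
# S18 / NODE COORD (helper143): existence of admissible coordinates

`node_coord` has exactly the type of `Fermat.Agent.S18.Integ.node_coord` of the row skeleton
(`origin/helper18:Fermat/Agent/S18/Integ/Skeleton.lean`):

    theorem node_coord (M : ℕ) [NeZero M] {ℓ : ℕ} [Fact ℓ.Prime] (_hℓM : ¬ ℓ ∣ M)
        (h3 : ℓ = 3 → 2 ∣ M) (h2 : ℓ = 2 → 3 ∣ M) : Mod.CoordinateStatement M ℓ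

Inputs: the Hauptmodul relations (`Fermat.Agent.Lib.Haupt`, helper637) and the membership
`t₂, t₃ ∈ ℚ(j_d : d ∣ M)` (`Member.lean`).
-/

set_option autoImplicit false

noncomputable section

namespace Fermat.Agent.S18.H143

open ModularCurve AlgebraicCurve
open Fermat.Agent.S18 (Qb)
open Fermat.Agent.S18.Mod (Om jOm jd IsCoordinate CoordinateStatement)
open Fermat.Agent.Lib.Haupt (t2 t3)

/-- `t₂` as an element of `Ω = F_M`. -/
def t2Om (M : ℕ) [NeZero M] (hM : 2 ∣ M) : Om M :=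
  ⟨coeffEmb Qb (t2 ℚ), coeffEmb_mem_laurentBaseChange Qb (t2_mem_full M hM)⟩

/-- `t₃` as an element of `Ω = F_M`. -/
def t3Om (M : ℕ) [NeZero M] (hM : 3 ∣ M) : Om M :=
  ⟨coeffEmb Qb (t3 ℚ), coeffEmb_mem_laurentBaseChange Qb (t3_mem_full M hM)⟩

theorem coe_jOm (M : ℕ) : ((jOm M : Om M) : LaurentSeries Qb) = coeffEmb Qb (jqModC ℚ) := by
  show coeffEmb Qb (qExpand ℚ 1 jq) = coeffEmb Qb (jqModC ℚ)
  rw [qExpand_one_apply]
  rfl

theorem jOm_mul_t2Om_sq (M : ℕ) [NeZero M] (hM : 2 ∣ M) :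
    jOm M * t2Om M hM ^ 2 = (t2Om M hM + 256) ^ 3 := by
  apply Subtype.ext
  have h := congrArg (coeffEmb Qb) (Fermat.Agent.Lib.Haupt.jq_mul_t2_sq ℚ)
  simp only [map_mul, map_pow, map_add, map_ofNat] at h
  push_cast
  rw [coe_jOm]
  exact h

theorem jOm_mul_t3Om_cube (M : ℕ) [NeZero M] (hM : 3 ∣ M) :
    jOm M * t3Om M hM ^ 3 = (t3Om M hM + 27) * (t3Om M hM + 243) ^ 3 := by
  apply Subtype.ext
  have h := congrArg (coeffEmb Qb) (Fermat.Agent.Lib.Haupt.jq_mul_t3_cube ℚ)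
  simp only [map_mul, map_pow, map_add, map_ofNat] at h
  push_cast
  rw [coe_jOm]
  exact h

theorem coeffEmb_eq_coeffMap_int (X : LaurentSeries ℤ) :
    coeffEmb Qb (coeffMap (Int.castRingHom ℚ) X) = coeffMap (Int.castRingHom Qb) X := by
  rw [coeffEmb, coeffMap_coeffMap]
  congr 1

/-- **NODE COORD.** -/
theorem node_coord (M : ℕ) [NeZero M] {ℓ : ℕ} [Fact ℓ.Prime] (_hℓM : ¬ ℓ ∣ M)
    (h3 : ℓ = 3 → 2 ∣ M) (h2 : ℓ = 2 → 3 ∣ M) : CoordinateStatement M ℓ := by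
  classical
  have hℓ : ℓ.Prime := Fact.out
  by_cases c3 : ℓ = 3
  · refine ⟨t2Om M (h3 c3), {0, -64}, Or.inr ⟨Or.inl ⟨c3, jOm_mul_t2Om_sq M (h3 c3), ?_⟩, ?_⟩⟩
    · intro s
      simp
    · refine ⟨t2 ℤ, Fermat.Agent.Lib.Haupt.coeff_t2_neg_one ℤ,
        fun k hk => Fermat.Agent.Lib.Haupt.coeff_t2_of_lt ℤ hk, ?_, ?_⟩
      · show coeffEmb Qb (t2 ℚ) = coeffMap (Int.castRingHom Qb) (t2 ℤ)
        rw [← Fermat.Agent.Lib.Haupt.coeffMap_t2 (Int.castRingHom ℚ), coeffEmb_eq_coeffMap_int]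
      · rw [Fermat.Agent.Lib.Haupt.coeffMap_t2]
        exact t2_mem_full M (h3 c3)
  · by_cases c2 : ℓ = 2
    · refine ⟨t3Om M (h2 c2), {0, -27},
        Or.inr ⟨Or.inr ⟨c2, jOm_mul_t3Om_cube M (h2 c2), ?_⟩, ?_⟩⟩
      · intro s
        simp
      · refine ⟨t3 ℤ, Fermat.Agent.Lib.Haupt.coeff_t3_neg_one ℤ,
          fun k hk => Fermat.Agent.Lib.Haupt.coeff_t3_of_lt ℤ hk, ?_, ?_⟩
        · show coeffEmb Qb (t3 ℚ) = coeffMap (Int.castRingHom Qb) (t3 ℤ)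
          rw [← Fermat.Agent.Lib.Haupt.coeffMap_t3 (Int.castRingHom ℚ), coeffEmb_eq_coeffMap_int]
        · rw [Fermat.Agent.Lib.Haupt.coeffMap_t3]
          exact t3_mem_full M (h2 c2)
    · refine ⟨jOm M, {0, 1728}, Or.inl ⟨?_, rfl, ?_⟩⟩
      · have h2le := hℓ.two_le
        by_contra hlt
        have h4 : ℓ = 4 := by omega
        rw [h4] at hℓ
        exact absurd hℓ (by norm_num)
      · intro s
        simp

end Fermat.Agent.S18.H143
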