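import Mathlib
import Fermat.Prelude.Def_ModularCurve_X0
import Fermat.Prelude.Def_ModularCurve_JqCoeff

/-!
# S18 / node_coord (helper143): low-order coefficients of the basic `q`-series

`Tr3 f a b c` records the first three coefficients of a power series.  We compute them for the
Prelude series `etaProd`, `dedekindEtaUnit`, `dedekindEtaUnitInv`, `eisenstein4`, `jNum`
(via Mathlib's pentagonal number theorem), and provide the dictionary
`single a 1 * ofPowerSeries P` for Laurent series.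
-/

set_option autoImplicit false

noncomputable section

namespace Fermat.Agent.S18.H143

open ModularCurve HahnSeries

/-- The first three coefficients of a power series. -/
def Tr3 (f : PowerSeries ℤ) (a b c : ℤ) : Prop :=
  PowerSeries.coeff 0 f = a ∧ PowerSeries.coeff 1 f = b ∧ PowerSeries.coeff 2 f = c

theorem Tr3.mul {f g : PowerSeries ℤ} {a b c a' b' c' : ℤ} (hf : Tr3 f a b c)
    (hg : Tr3 g a' b' c') :
    Tr3 (f * g) (a * a') (a * b' + b * a') (a * c' + b * b' + c * a') := by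
  obtain ⟨h0, h1, h2⟩ := hf
  obtain ⟨g0, g1, g2⟩ := hg
  refine ⟨?_, ?_, ?_⟩
  · rw [PowerSeries.coeff_mul]
    simp [h0, g0]
  · rw [PowerSeries.coeff_mul]
    simp [Finset.Nat.antidiagonal_succ, h0, g0, h1, g1]
  · rw [PowerSeries.coeff_mul]
    simp [Finset.Nat.antidiagonal_succ, h0, g0, h1, g1, h2, g2]
    ring

theorem Tr3.congr {f : PowerSeries ℤ} {a b c a' b' c' : ℤ} (hf : Tr3 f a b c)
    (ha : a = a') (hb : b = b') (hc : c = c') : Tr3 f a' b' c' := by
  subst ha hb hc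
  exact hf

theorem Tr3.one : Tr3 1 1 0 0 := by
  refine ⟨?_, ?_, ?_⟩ <;> simp [PowerSeries.coeff_one]

/-- Coefficients of the inverse, from `f * g = 1`. -/
theorem Tr3.inv_of_mul_eq_one {f g : PowerSeries ℤ} {b c : ℤ} (hf : Tr3 f 1 b c)
    (h : f * g = 1) (hg0 : PowerSeries.coeff 0 g = 1) :
    Tr3 g 1 (-b) (b * b - c) := by
  obtain ⟨h0, h1, h2⟩ := hf
  have e1 := congrArg (PowerSeries.coeff 1) h
  have e2 := congrArg (PowerSeries.coeff 2) h
  rw [PowerSeries.coeff_mul] at e1 e2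
  simp [Finset.Nat.antidiagonal_succ, h0, h1, h2, hg0, PowerSeries.coeff_one] at e1 e2
  refine ⟨hg0, by linarith, ?_⟩
  have hg1 : PowerSeries.coeff 1 g = -b := by linarith
  rw [hg1] at e2
  linarith

theorem tr3_etaProd : Tr3 etaProd 1 (-1) (-1) := by
  have h : etaProd = PowerSeries.pentagonalSeries ℤ := by
    rw [etaProd]
    exact PowerSeries.WithPiTopology.tprod_one_sub_X_pow ℤ
  rw [h]
  refine ⟨?_, ?_, ?_⟩
  · have := PowerSeries.coeff_pentagonalSeries_pentagonal ℤ 0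
    simpa [pentagonal] using this
  · have := PowerSeries.coeff_pentagonalSeries_pentagonal ℤ 1
    simpa [pentagonal] using this
  · have := PowerSeries.coeff_pentagonalSeries_pentagonal ℤ (-1)
    simpa [pentagonal] using this


theorem Tr3.sq {f : PowerSeries ℤ} {a b c : ℤ} (hf : Tr3 f a b c) :
    Tr3 (f ^ 2) (a * a) (a * b + b * a) (a * c + b * b + c * a) := by
  rw [pow_two]
  exact hf.mul hf

/-- `f ^ 12` for `f = 1 + b X + c X² + …`. -/
theorem Tr3.pow12 {f : PowerSeries ℤ} {b c : ℤ} (hf : Tr3 f 1 b c) :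
    Tr3 (f ^ 12) 1 (12 * b) (12 * c + 66 * b * b) := by
  have h2 := hf.sq
  have h4 := h2.sq
  have h8 := h4.sq
  have h12 := h8.mul h4
  have e : ((f ^ 2) ^ 2) ^ 2 * (f ^ 2) ^ 2 = f ^ 12 := by ring
  rw [e] at h12
  exact h12.congr (by ring) (by ring) (by ring)

/-- `f ^ 24` for `f = 1 + b X + c X² + …`. -/
theorem Tr3.pow24 {f : PowerSeries ℤ} {b c : ℤ} (hf : Tr3 f 1 b c) :
    Tr3 (f ^ 24) 1 (24 * b) (24 * c + 276 * b * b) := by
  have h12 := hf.pow12
  have h24 := h12.sq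
  have e : (f ^ 12) ^ 2 = f ^ 24 := by ring
  rw [e] at h24
  exact h24.congr (by ring) (by ring) (by ring)

/-- `f ^ 3` for `f = 1 + b X + c X² + …`. -/
theorem Tr3.pow3 {f : PowerSeries ℤ} {b c : ℤ} (hf : Tr3 f 1 b c) :
    Tr3 (f ^ 3) 1 (3 * b) (3 * c + 3 * b * b) := by
  have h2 := hf.sq
  have h3 := h2.mul hf
  have e : f ^ 2 * f = f ^ 3 := by ring
  rw [e] at h3
  exact h3.congr (by ring) (by ring) (by ring)

theorem tr3_dedekindEtaUnit : Tr3 dedekindEtaUnit 1 (-24) 252 := by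
  rw [dedekindEtaUnit]
  exact tr3_etaProd.pow24.congr rfl (by norm_num) (by norm_num)

theorem tr3_dedekindEtaUnitInv : Tr3 dedekindEtaUnitInv 1 24 324 := by
  have h := tr3_dedekindEtaUnit.inv_of_mul_eq_one dedekindEtaUnit_mul_inv
    (by rw [PowerSeries.coeff_zero_eq_constantCoeff]; exact constantCoeff_dedekindEtaUnitInv)
  exact h.congr rfl (by norm_num) (by norm_num)

theorem tr3_eisenstein4 : Tr3 eisenstein4 1 240 2160 := by
  refine ⟨?_, ?_, ?_⟩
  · simp [eisenstein4]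
  · simp [eisenstein4]
  · rw [eisenstein4, PowerSeries.coeff_mk]
    have h2 : Nat.divisors 2 = {1, 2} := by decide
    rw [if_neg (by norm_num), h2]
    norm_num

theorem tr3_jNum : Tr3 jNum 1 744 196884 := by
  rw [jNum]
  have h := tr3_eisenstein4.pow3.mul tr3_dedekindEtaUnitInv
  exact h.congr (by norm_num) (by norm_num) (by norm_num)

/-- The formal inverse of the eta product. -/
def etaInv : PowerSeries ℤ := etaProd.invOfUnit 1

theorem etaProd_mul_etaInv : etaProd * etaInv = 1 :=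
  PowerSeries.mul_invOfUnit _ _ (by rw [constantCoeff_etaProd]; rfl)

theorem constantCoeff_etaInv : PowerSeries.constantCoeff etaInv = 1 := by
  have h := congrArg (PowerSeries.constantCoeff (R := ℤ)) etaProd_mul_etaInv
  rwa [map_mul, constantCoeff_etaProd, one_mul, map_one] at h

theorem tr3_etaInv : Tr3 etaInv 1 1 2 := by
  have h := tr3_etaProd.inv_of_mul_eq_one etaProd_mul_etaInv
    (by rw [PowerSeries.coeff_zero_eq_constantCoeff]; exact constantCoeff_etaInv)
  exact h.congr rfl (by norm_num) (by norm_num)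

theorem tr3_etaProd_pow12 : Tr3 (etaProd ^ 12) 1 (-12) 54 :=
  tr3_etaProd.pow12.congr rfl (by norm_num) (by norm_num)

theorem tr3_etaInv_pow12 : Tr3 (etaInv ^ 12) 1 12 90 :=
  tr3_etaInv.pow12.congr rfl (by norm_num) (by norm_num)

/-! ### The operator `q ↦ q^p` on power series -/

/-- `V_p` on power series: `f(X) ↦ f(X^p)`. -/
def vP (p : ℕ) (Q : PowerSeries ℤ) : PowerSeries ℤ :=
  PowerSeries.mk fun n => if p ∣ n then PowerSeries.coeff (n / p) Q else 0

theorem qExpand_ofPowerSeries (p : ℕ) [NeZero p] (Q : PowerSeries ℤ) :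
    qExpand ℤ p (HahnSeries.ofPowerSeries ℤ ℤ Q) = HahnSeries.ofPowerSeries ℤ ℤ (vP p Q) := by
  have hp : (0 : ℤ) < (p : ℤ) := by exact_mod_cast Nat.pos_of_ne_zero (NeZero.ne p)
  ext n
  by_cases hdvd : (p : ℤ) ∣ n
  · obtain ⟨m, rfl⟩ := hdvd
    rw [qExpand_coeff_mul]
    rcases lt_or_ge m 0 with hm | hm
    · rw [ofPowerSeries_coeff_of_neg _ hm, ofPowerSeries_coeff_of_neg _ (by nlinarith)]
    · obtain ⟨k, rfl⟩ := Int.eq_ofNat_of_zero_le hm
      rw [show ((p : ℤ) * (k : ℤ)) = ((p * k : ℕ) : ℤ) by push_cast; ring,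
        HahnSeries.ofPowerSeries_apply_coeff, HahnSeries.ofPowerSeries_apply_coeff, vP,
        PowerSeries.coeff_mk, if_pos (dvd_mul_right p k),
        Nat.mul_div_cancel_left k (Nat.pos_of_ne_zero (NeZero.ne p))]
  · rw [qExpand_coeff_of_not_dvd p _ hdvd]
    rcases lt_or_ge n 0 with hn | hn
    · rw [ofPowerSeries_coeff_of_neg _ hn]
    · obtain ⟨k, rfl⟩ := Int.eq_ofNat_of_zero_le hn
      rw [HahnSeries.ofPowerSeries_apply_coeff, vP, PowerSeries.coeff_mk, if_neg]
      intro h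
      exact hdvd (by exact_mod_cast h)

theorem tr3_vP_two {Q : PowerSeries ℤ} {a b c : ℤ} (hQ : Tr3 Q a b c) : Tr3 (vP 2 Q) a 0 b := by
  obtain ⟨h0, h1, -⟩ := hQ
  refine ⟨?_, ?_, ?_⟩
  · simp [vP, h0]
  · simp [vP]
  · simp [vP, h1]

theorem tr3_vP_three {Q : PowerSeries ℤ} {a b c : ℤ} (hQ : Tr3 Q a b c) : Tr3 (vP 3 Q) a 0 0 := by
  obtain ⟨h0, -, -⟩ := hQ
  refine ⟨?_, ?_, ?_⟩
  · simp [vP, h0]
  · simp [vP]
  · simp [vP]

/-! ### Laurent series of the form `q^a · P(q)` -/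

/-- `q^a · P(q)`. -/
def shiftPS (a : ℤ) (P : PowerSeries ℤ) : LaurentSeries ℤ :=
  HahnSeries.single a (1 : ℤ) * HahnSeries.ofPowerSeries ℤ ℤ P

theorem shiftPS_coeff_of_lt (a : ℤ) (P : PowerSeries ℤ) {n : ℤ} (hn : n < a) :
    (shiftPS a P).coeff n = 0 := by
  rw [shiftPS, HahnSeries.coeff_single_mul, one_mul]
  exact ofPowerSeries_coeff_of_neg _ (by omega)

theorem shiftPS_coeff_add (a : ℤ) (P : PowerSeries ℤ) (k : ℕ) :
    (shiftPS a P).coeff (a + k) = PowerSeries.coeff k P := by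
  rw [shiftPS, HahnSeries.coeff_single_mul, one_mul, add_sub_cancel_left,
    HahnSeries.ofPowerSeries_apply_coeff]

theorem shiftPS_mul (a b : ℤ) (P Q : PowerSeries ℤ) :
    shiftPS a P * shiftPS b Q = shiftPS (a + b) (P * Q) := by
  simp only [shiftPS, map_mul]
  rw [mul_mul_mul_comm, HahnSeries.single_mul_single, mul_one]

theorem qExpand_shiftPS (p : ℕ) [NeZero p] (a : ℤ) (P : PowerSeries ℤ) :
    qExpand ℤ p (shiftPS a P) = shiftPS ((p : ℤ) * a) (vP p P) := by
  rw [shiftPS, map_mul, qExpand_single, qExpand_ofPowerSeries, shiftPS]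

/-- Every Laurent series with coefficients vanishing below `a` is `q^a · P`. -/
theorem exists_shiftPS (F : LaurentSeries ℤ) (a : ℤ) (hF : ∀ n < a, F.coeff n = 0) :
    F = shiftPS a (PowerSeries.mk fun k => F.coeff (a + k)) := by
  ext n
  rcases lt_or_ge n a with hn | hn
  · rw [hF n hn, shiftPS_coeff_of_lt _ _ hn]
  · obtain ⟨k, hk⟩ := Int.eq_ofNat_of_zero_le (sub_nonneg.mpr hn)
    have hn' : n = a + k := by omega
    rw [hn', shiftPS_coeff_add, PowerSeries.coeff_mk]

/-- Low-order coefficients of a product of Laurent series. -/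
theorem coeff_mul_of_lt {F G : LaurentSeries ℤ} {a b : ℤ} (hF : ∀ n < a, F.coeff n = 0)
    (hG : ∀ n < b, G.coeff n = 0) {n : ℤ} (hn : n < a + b) : (F * G).coeff n = 0 := by
  rw [exists_shiftPS F a hF, exists_shiftPS G b hG, shiftPS_mul]
  exact shiftPS_coeff_of_lt _ _ hn

theorem coeff_mul_eq {F G : LaurentSeries ℤ} {a b : ℤ} (hF : ∀ n < a, F.coeff n = 0)
    (hG : ∀ n < b, G.coeff n = 0) : (F * G).coeff (a + b) = F.coeff a * G.coeff b := by
  conv_lhs => rw [exists_shiftPS F a hF, exists_shiftPS G b hG, shiftPS_mul]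
  have := shiftPS_coeff_add (a + b) (PowerSeries.mk (fun k : ℕ => F.coeff (a + k)) *
    PowerSeries.mk (fun k : ℕ => G.coeff (b + k))) 0
  simp only [Nat.cast_zero, add_zero] at this
  rw [this, PowerSeries.coeff_zero_eq_constantCoeff, map_mul,
    ← PowerSeries.coeff_zero_eq_constantCoeff, PowerSeries.coeff_mk, PowerSeries.coeff_mk]
  simp

end Fermat.Agent.S18.H143
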