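import Mathlib
import Fermat.Agent.S18.H143.Trunc
import Fermat.Agent.S28.H25.PrimeLevelPolys

/-!
# S18 / node_coord (helper143): the Hauptmodul `t₂ = Δ(q)/Δ(q²)` of `X₀(2)`

Main results (formal `q`-series over `ℤ`):

* `jq_mul_t2L_sq : jqModC ℤ * t2L ^ 2 = (t2L + 256) ^ 3`
* `jq2_mul_t2L  : qExpand ℤ 2 (jqModC ℤ) * t2L = (t2L + 16) ^ 3`
* `t2L_coeff_neg_one`, `t2L_coeff_of_lt` : `t2L = q⁻¹ + …`.

Proof: the landed S28 machinery (`H25.exists_coeff_eq_evalAt`) shows that the coefficients of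
`(X - t₂) · charpoly (secMat 2 g₂)`, `g₂ = 2¹²/t₂`, are integral polynomials in `j`; they are
identified by their principal parts.
-/

set_option autoImplicit false

noncomputable section

namespace Fermat.Agent.S18.H143

open ModularCurve Polynomial
open Fermat.Agent.S28 (evalAt deltaL deltaInvL unitL)
open Fermat.Agent.S28.H25 (SPair cmC discQuot discQuotInf)
open Fermat.Agent.S28.H807 (secL secMat divShift mulNat)

/-! ### Generalities -/

/-- Swapping an `S`-compatible pair `(E, G)` with `E = c/G`, `G = c/E`. -/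
theorem sPair_swap {p : ℕ} [NeZero p] {E G : UpperHalfPlane → ℂ} (h : SPair p E G) (c : ℂ)
    (hE : ∀ z, E z = c / G z) (hG : ∀ z, G z = c / E z) : SPair p G E where
  inf τ := by rw [hG, h.inf, ← hE]
  zero τ := by rw [hE, h.zero, ← hG]
  mid b b' m hb τ := by rw [hE, h.mid b b' m hb, ← hE]

theorem evalAt_rat (Q : Polynomial ℤ) :
    coeffMap (Int.castRingHom ℚ) (evalAt (jqModC ℤ) Q) =
      Polynomial.aeval (jqModC ℚ) (Q.map (Int.castRingHom ℚ)) := by
  have h : (coeffMap (Int.castRingHom ℚ)).comp (evalAt (jqModC ℤ)) =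
      ((Polynomial.aeval (jqModC ℚ)).toRingHom).comp
        (Polynomial.mapRingHom (Int.castRingHom ℚ)) := by
    apply Polynomial.ringHom_ext
    · intro a
      simp [evalAt]
    · simp [evalAt, coeffMap_jqModC]
  exact congrArg (fun f : Polynomial ℤ →+* LaurentSeries ℚ => f Q) h

/-- A polynomial in `j` without principal part and constant term vanishes. -/
theorem poly_eq_zero_of_coeff (Q : Polynomial ℤ)
    (h : ∀ n : ℤ, n ≤ 0 → (evalAt (jqModC ℤ) Q).coeff n = 0) : Q = 0 := by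
  by_contra hQ
  have hQq : Q.map (Int.castRingHom ℚ) ≠ 0 :=
    (Polynomial.map_ne_zero_iff (RingHom.injective_int (Int.castRingHom ℚ))).mpr hQ
  have h1 := Fermat.Agent.S28.h88_coeff_aeval_jqModC ℚ (Q.map (Int.castRingHom ℚ))
  rw [← evalAt_rat, coeffMap_coeff, h _ (by omega), map_zero] at h1
  exact hQq (Polynomial.leadingCoeff_eq_zero.mp h1.symm)

/-- Identification of an element of `ℤ[j]` by its principal part and constant term. -/
theorem eq_evalAt_of_coeff {c : LaurentSeries ℤ} (hc : ∃ Q : Polynomial ℤ, evalAt (jqModC ℤ) Q = c)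
    (P : Polynomial ℤ)
    (h : ∀ n : ℤ, n ≤ 0 → c.coeff n = (evalAt (jqModC ℤ) P).coeff n) :
    c = evalAt (jqModC ℤ) P := by
  obtain ⟨Q, rfl⟩ := hc
  have h0 : Q - P = 0 := by
    apply poly_eq_zero_of_coeff
    intro n hn
    rw [map_sub, HahnSeries.coeff_sub, h n hn, sub_self]
  rw [sub_eq_zero.mp h0]


/-! ### The series -/

/-- The formal Hauptmodul of level 2: `t₂ = Δ(q)/Δ(q²) = q⁻¹ - 24 + …`. -/
def t2L : LaurentSeries ℤ := deltaL ℤ * qExpand ℤ 2 (deltaInvL ℤ)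

/-- `g₂ = 2¹² Δ(q²)/Δ(q) = 2¹²/t₂`. -/
def g2L : LaurentSeries ℤ := ((2 : ℕ) : LaurentSeries ℤ) ^ 12 * unitL ℤ 2

theorem map_castRingHom_int (f : PowerSeries ℤ) : f.map (Int.castRingHom ℤ) = f := by
  ext n
  simp

theorem deltaL_eq : deltaL ℤ = shiftPS 1 dedekindEtaUnit := by
  rw [deltaL, map_castRingHom_int, shiftPS]

theorem deltaInvL_eq : deltaInvL ℤ = shiftPS (-1) dedekindEtaUnitInv := by
  rw [deltaInvL, map_castRingHom_int, shiftPS]

theorem jqModC_eq : jqModC ℤ = shiftPS (-1) jNum := by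
  rw [jqModC, map_castRingHom_int, shiftPS]

theorem t2L_eq : t2L = shiftPS (-1) (dedekindEtaUnit * vP 2 dedekindEtaUnitInv) := by
  rw [t2L, deltaL_eq, deltaInvL_eq, qExpand_shiftPS, shiftPS_mul]
  norm_num

theorem unitL2_eq : unitL ℤ 2 = shiftPS 1 (vP 2 dedekindEtaUnit * dedekindEtaUnitInv) := by
  rw [unitL, deltaL_eq, deltaInvL_eq, qExpand_shiftPS, shiftPS_mul]
  norm_num

theorem t2L_mul_unitL : t2L * unitL ℤ 2 = 1 := by
  have h := Fermat.Agent.S28.h88_deltaL_mul_deltaInvL ℤ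
  have h2 := congrArg (qExpand ℤ 2) h
  rw [map_mul, map_one] at h2
  rw [t2L, unitL]
  calc deltaL ℤ * qExpand ℤ 2 (deltaInvL ℤ) * (qExpand ℤ 2 (deltaL ℤ) * deltaInvL ℤ)
      = (deltaL ℤ * deltaInvL ℤ) * (qExpand ℤ 2 (deltaL ℤ) * qExpand ℤ 2 (deltaInvL ℤ)) := by
        ring
    _ = 1 := by rw [h, h2, mul_one]

theorem natCast_pow_mul_coeff (F : LaurentSeries ℤ) (a k : ℕ) (n : ℤ) :
    (((a : ℕ) : LaurentSeries ℤ) ^ k * F).coeff n = (a : ℤ) ^ k * F.coeff n := by
  have h : ((a : ℕ) : LaurentSeries ℤ) ^ k = HahnSeries.C ((a : ℤ) ^ k) := by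
    rw [map_pow, map_natCast]
  rw [h, HahnSeries.C_mul_eq_smul, HahnSeries.coeff_smul, smul_eq_mul]

theorem t2L_coeff_of_lt {n : ℤ} (hn : n < -1) : t2L.coeff n = 0 := by
  rw [t2L_eq]
  exact shiftPS_coeff_of_lt _ _ hn

theorem tr3_t2 : Tr3 (dedekindEtaUnit * vP 2 dedekindEtaUnitInv) 1 (-24) 276 :=
  (tr3_dedekindEtaUnit.mul (tr3_vP_two tr3_dedekindEtaUnitInv)).congr
    (by norm_num) (by norm_num) (by norm_num)

theorem tr3_u2 : Tr3 (vP 2 dedekindEtaUnit * dedekindEtaUnitInv) 1 24 300 :=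
  ((tr3_vP_two tr3_dedekindEtaUnit).mul tr3_dedekindEtaUnitInv).congr
    (by norm_num) (by norm_num) (by norm_num)

theorem t2L_coeff_neg_one : t2L.coeff (-1) = 1 := by
  rw [t2L_eq]
  have h := shiftPS_coeff_add (-1) (dedekindEtaUnit * vP 2 dedekindEtaUnitInv) 0
  rw [tr3_t2.1] at h
  simpa using h

theorem t2L_coeff_zero : t2L.coeff 0 = -24 := by
  rw [t2L_eq]
  have h := shiftPS_coeff_add (-1) (dedekindEtaUnit * vP 2 dedekindEtaUnitInv) 1
  rw [tr3_t2.2.1] at h
  simpa using h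

theorem jq_coeff_of_lt {n : ℤ} (hn : n < -1) : (jqModC ℤ).coeff n = 0 := by
  rw [jqModC_eq]
  exact shiftPS_coeff_of_lt _ _ hn

theorem jq_coeff_neg_one : (jqModC ℤ).coeff (-1) = 1 := by
  rw [jqModC_eq]
  have h := shiftPS_coeff_add (-1) jNum 0
  rw [tr3_jNum.1] at h
  simpa using h

theorem jq_coeff_zero : (jqModC ℤ).coeff 0 = 744 := by
  rw [jqModC_eq]
  have h := shiftPS_coeff_add (-1) jNum 1
  rw [tr3_jNum.2.1] at h
  simpa using h

theorem g2L_coeff_of_lt {n : ℤ} (hn : n < 1) : g2L.coeff n = 0 := by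
  rw [g2L, natCast_pow_mul_coeff, unitL2_eq, shiftPS_coeff_of_lt _ _ hn, mul_zero]

theorem g2L_coeff_one : g2L.coeff 1 = 4096 := by
  rw [g2L, natCast_pow_mul_coeff, unitL2_eq]
  have h := shiftPS_coeff_add 1 (vP 2 dedekindEtaUnit * dedekindEtaUnitInv) 0
  rw [tr3_u2.1] at h
  simp only [Nat.cast_zero, add_zero] at h
  rw [h]
  norm_num

theorem g2L_coeff_two : g2L.coeff 2 = 98304 := by
  rw [g2L, natCast_pow_mul_coeff, unitL2_eq]
  have h := shiftPS_coeff_add 1 (vP 2 dedekindEtaUnit * dedekindEtaUnitInv) 1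
  rw [tr3_u2.2.1] at h
  norm_num at h
  rw [h]
  norm_num

theorem t2L_mul_g2L : t2L * g2L = 4096 := by
  rw [g2L, mul_left_comm, t2L_mul_unitL, mul_one]
  norm_num


/-! ### Coefficients of constants -/

theorem evalAt_C (y : LaurentSeries ℤ) (a : ℤ) :
    evalAt y (Polynomial.C a) = HahnSeries.C a := by
  simp [evalAt]

theorem evalAt_X (y : LaurentSeries ℤ) : evalAt y Polynomial.X = y := by
  simp [evalAt]

theorem coeff_C_zero (a : ℤ) : (HahnSeries.C a : LaurentSeries ℤ).coeff 0 = a := by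
  rw [HahnSeries.C_apply, HahnSeries.coeff_single_same]

theorem coeff_C_of_ne (a : ℤ) {n : ℤ} (hn : n ≠ 0) :
    (HahnSeries.C a : LaurentSeries ℤ).coeff n = 0 := by
  rw [HahnSeries.C_apply, HahnSeries.coeff_single_of_ne hn]

theorem cubic_coeff_two (a b c : LaurentSeries ℤ) :
    (X ^ 3 + Polynomial.C a * X ^ 2 + Polynomial.C b * X + Polynomial.C c).coeff 2 = a := by
  simp [Polynomial.coeff_X_pow]

theorem cubic_coeff_one (a b c : LaurentSeries ℤ) :
    (X ^ 3 + Polynomial.C a * X ^ 2 + Polynomial.C b * X + Polynomial.C c).coeff 1 = b := by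
  simp [Polynomial.coeff_X_pow, Polynomial.coeff_X, Polynomial.coeff_C]

theorem cubic_coeff_zero (a b c : LaurentSeries ℤ) :
    (X ^ 3 + Polynomial.C a * X ^ 2 + Polynomial.C b * X + Polynomial.C c).coeff 0 = c := by
  simp [Polynomial.coeff_X_pow, Polynomial.coeff_X, Polynomial.coeff_C]

/-! ### The swapped `Δ`-pair -/

theorem sPair_disc_swap (p : ℕ) [NeZero p] : SPair p (discQuot p) (discQuotInf p) := by
  have hp : (p : ℂ) ≠ 0 := by exact_mod_cast NeZero.ne p
  refine sPair_swap (Fermat.Agent.S28.H25.sPair_disc p) ((p : ℂ) ^ 12) ?_ ?_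
  · intro z
    have h1 := ModularForm.discriminant_ne_zero z
    have h2 := ModularForm.discriminant_ne_zero (mulNat p z)
    simp only [discQuotInf, discQuot]
    field_simp
  · intro z
    have h1 := ModularForm.discriminant_ne_zero z
    have h2 := ModularForm.discriminant_ne_zero (mulNat p z)
    simp only [discQuotInf, discQuot]
    field_simp

/-! ### Identification of the cubic -/

/-- The sections of `g₂`. -/
def s2 (r : ℤ) : LaurentSeries ℤ := secL 2 r g2L

theorem s2_coeff (r m : ℤ) : (s2 r).coeff m = g2L.coeff (2 * m + r) := by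
  simp [s2]

theorem charpoly2 : (secMat 2 g2L).charpoly =
    X ^ 2 - C (s2 0 + s2 0) * X + C (s2 0 * s2 0 - s2 (-1) * s2 1) := by
  rw [Matrix.charpoly_fin_two, Matrix.trace_fin_two, Matrix.det_fin_two]
  simp [Fermat.Agent.S28.H807.secMat_apply, s2]

theorem formalPoly2 : (X - C t2L) * (secMat 2 g2L).charpoly =
    X ^ 3 + C (-(t2L + (s2 0 + s2 0))) * X ^ 2 +
      C (t2L * (s2 0 + s2 0) + (s2 0 * s2 0 - s2 (-1) * s2 1)) * X +
      C (-(t2L * (s2 0 * s2 0 - s2 (-1) * s2 1))) := by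
  rw [charpoly2]
  simp only [map_add, map_sub, map_mul, map_neg]
  ring

theorem exists_coeff2 (k : ℕ) : ∃ Q : Polynomial ℤ,
    evalAt (jqModC ℤ) Q = ((X - C t2L) * (secMat 2 g2L).charpoly).coeff k :=
  Fermat.Agent.S28.H25.exists_coeff_eq_evalAt 2 g2L t2L (discQuotInf 2) (discQuot 2)
    (Fermat.Agent.S28.H25.hasQExp_discQuotInf 2) (Fermat.Agent.S28.H25.hasQExp_discQuot 2)
    (sPair_disc_swap 2) k

theorem s2_zero_coeff_of_lt {n : ℤ} (hn : n < 1) : (s2 0).coeff n = 0 := by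
  rw [s2_coeff]
  exact g2L_coeff_of_lt (by omega)

theorem s2_neg_coeff_of_lt {n : ℤ} (hn : n < 1) : (s2 (-1)).coeff n = 0 := by
  rw [s2_coeff]
  exact g2L_coeff_of_lt (by omega)

theorem s2_one_coeff_of_lt {n : ℤ} (hn : n < 0) : (s2 1).coeff n = 0 := by
  rw [s2_coeff]
  exact g2L_coeff_of_lt (by omega)

/-- The "determinant" `s₀² - s₋₁ s₁`. -/
def det2 : LaurentSeries ℤ := s2 0 * s2 0 - s2 (-1) * s2 1

theorem det2_coeff_of_lt {n : ℤ} (hn : n < 1) : det2.coeff n = 0 := by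
  rw [det2, HahnSeries.coeff_sub,
    coeff_mul_of_lt (a := 1) (b := 1) (fun n hn => s2_zero_coeff_of_lt hn)
      (fun n hn => s2_zero_coeff_of_lt hn) (by omega),
    coeff_mul_of_lt (a := 1) (b := 0) (fun n hn => s2_neg_coeff_of_lt hn)
      (fun n hn => s2_one_coeff_of_lt hn) (by omega), sub_zero]

theorem det2_coeff_one : det2.coeff 1 = -16777216 := by
  have h1 := coeff_mul_of_lt (a := 1) (b := 1) (fun n hn => s2_zero_coeff_of_lt hn)
      (fun n hn => s2_zero_coeff_of_lt hn) (n := 1) (by omega)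
  have h2 := coeff_mul_eq (a := 1) (b := 0) (fun n hn => s2_neg_coeff_of_lt hn)
      (fun n hn => s2_one_coeff_of_lt hn)
  rw [s2_coeff, s2_coeff] at h2
  norm_num at h2
  rw [g2L_coeff_one] at h2
  rw [det2, HahnSeries.coeff_sub, h1, h2]
  norm_num

theorem t2L_mul_s2_coeff_of_lt {n : ℤ} (hn : n < 0) : (t2L * s2 0).coeff n = 0 :=
  coeff_mul_of_lt (a := -1) (b := 1) (fun n hn => t2L_coeff_of_lt hn)
    (fun n hn => s2_zero_coeff_of_lt hn) (by omega)

theorem t2L_mul_s2_coeff_zero : (t2L * s2 0).coeff 0 = 98304 := by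
  have h := coeff_mul_eq (a := -1) (b := 1) (fun n hn => t2L_coeff_of_lt hn)
    (fun n hn => s2_zero_coeff_of_lt hn)
  rw [s2_coeff, t2L_coeff_neg_one] at h
  norm_num at h
  rw [g2L_coeff_two] at h
  exact h

theorem t2L_mul_det2_coeff_of_lt {n : ℤ} (hn : n < 0) : (t2L * det2).coeff n = 0 :=
  coeff_mul_of_lt (a := -1) (b := 1) (fun n hn => t2L_coeff_of_lt hn)
    (fun n hn => det2_coeff_of_lt hn) (by omega)

theorem t2L_mul_det2_coeff_zero : (t2L * det2).coeff 0 = -16777216 := by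
  have h := coeff_mul_eq (a := -1) (b := 1) (fun n hn => t2L_coeff_of_lt hn)
    (fun n hn => det2_coeff_of_lt hn)
  rw [t2L_coeff_neg_one, det2_coeff_one] at h
  norm_num at h
  exact h

/-- `t₂ + tr = j - 768`. -/
theorem ident2_two : -(t2L + (s2 0 + s2 0)) = -jqModC ℤ + 768 := by
  have hc : ∃ Q : Polynomial ℤ, evalAt (jqModC ℤ) Q = -(t2L + (s2 0 + s2 0)) := by
    obtain ⟨Q, hQ⟩ := exists_coeff2 2
    refine ⟨Q, ?_⟩
    rw [hQ, formalPoly2, cubic_coeff_two]
  have h := eq_evalAt_of_coeff hc (-Polynomial.X + Polynomial.C 768) ?_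
  · rw [h, map_add, map_neg, evalAt_X, evalAt_C, map_ofNat]
  · intro n hn
    rw [map_add, map_neg, evalAt_X, evalAt_C]
    simp only [HahnSeries.coeff_neg, HahnSeries.coeff_add]
    rcases lt_trichotomy n (-1) with h1 | h1 | h1
    · rw [t2L_coeff_of_lt h1, s2_zero_coeff_of_lt (by omega), jq_coeff_of_lt h1,
        coeff_C_of_ne _ (by omega)]
      norm_num
    · subst h1
      rw [t2L_coeff_neg_one, s2_zero_coeff_of_lt (by omega), jq_coeff_neg_one,
        coeff_C_of_ne _ (by omega)]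
      norm_num
    · have h0 : n = 0 := by omega
      subst h0
      rw [t2L_coeff_zero, s2_zero_coeff_of_lt (by omega), jq_coeff_zero, coeff_C_zero]
      norm_num

/-- `t₂ · tr + det = 196608`. -/
theorem ident2_one : t2L * (s2 0 + s2 0) + det2 = 196608 := by
  have hc : ∃ Q : Polynomial ℤ, evalAt (jqModC ℤ) Q = t2L * (s2 0 + s2 0) + det2 := by
    obtain ⟨Q, hQ⟩ := exists_coeff2 1
    refine ⟨Q, ?_⟩
    rw [hQ, formalPoly2, cubic_coeff_one, det2]
  have h := eq_evalAt_of_coeff hc (Polynomial.C 196608) ?_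
  · rw [h, evalAt_C, map_ofNat]
  · intro n hn
    rw [evalAt_C, mul_add]
    simp only [HahnSeries.coeff_add]
    rcases lt_or_eq_of_le hn with h1 | h1
    · rw [t2L_mul_s2_coeff_of_lt h1, det2_coeff_of_lt (by omega), coeff_C_of_ne _ (by omega)]
      norm_num
    · subst h1
      rw [t2L_mul_s2_coeff_zero, det2_coeff_of_lt (by omega), coeff_C_zero]
      norm_num

/-- `t₂ · det = -2²⁴`. -/
theorem ident2_zero : -(t2L * det2) = 16777216 := by
  have hc : ∃ Q : Polynomial ℤ, evalAt (jqModC ℤ) Q = -(t2L * det2) := by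
    obtain ⟨Q, hQ⟩ := exists_coeff2 0
    refine ⟨Q, ?_⟩
    rw [hQ, formalPoly2, cubic_coeff_zero, det2]
  have h := eq_evalAt_of_coeff hc (Polynomial.C 16777216) ?_
  · rw [h, evalAt_C, map_ofNat]
  · intro n hn
    rw [evalAt_C]
    simp only [HahnSeries.coeff_neg]
    rcases lt_or_eq_of_le hn with h1 | h1
    · rw [t2L_mul_det2_coeff_of_lt h1, coeff_C_of_ne _ (by omega)]
      norm_num
    · subst h1
      rw [t2L_mul_det2_coeff_zero, coeff_C_zero]
      norm_num

/-- **The level 2 Hauptmodul relation** `j · t₂² = (t₂ + 256)³` in `ℤ((q))`. -/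
theorem jq_mul_t2L_sq : jqModC ℤ * t2L ^ 2 = (t2L + 256) ^ 3 := by
  have e2 := ident2_two
  have e1 := ident2_one
  have e0 := ident2_zero
  linear_combination t2L ^ 2 * e2 + t2L * e1 + e0

/-- The explicit cubic. -/
theorem formalPoly2_eq : (X - C t2L) * (secMat 2 g2L).charpoly =
    X ^ 3 + C (-jqModC ℤ + 768) * X ^ 2 + C 196608 * X + C 16777216 := by
  rw [formalPoly2, ident2_two]
  have e1 := ident2_one
  have e0 := ident2_zero
  rw [det2] at e1 e0
  rw [e1, e0]

theorem ofNat_ne_zero_laurent (a : ℕ) (ha : a ≠ 0) : ((a : ℕ) : LaurentSeries ℤ) ≠ 0 := by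
  intro h
  have h1 : (HahnSeries.C ((a : ℕ) : ℤ) : LaurentSeries ℤ) = HahnSeries.C 0 := by
    rw [map_natCast, h, map_zero]
  have := HahnSeries.C_injective h1
  exact ha (by exact_mod_cast this)

/-- **The second relation** `j(q²) · t₂ = (t₂ + 16)³` in `ℤ((q))`. -/
theorem jq2_mul_t2L : qExpand ℤ 2 (jqModC ℤ) * t2L = (t2L + 16) ^ 3 := by
  have h : (((X - Polynomial.C t2L) * (secMat 2 g2L).charpoly).map (qExpand ℤ 2)).eval g2L
      = 0 := by
    rw [Polynomial.map_mul, Polynomial.eval_mul,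
      Fermat.Agent.S28.H807.secMat_charpoly_eval, mul_zero]
  rw [formalPoly2_eq] at h
  simp only [Polynomial.map_add, Polynomial.map_mul, Polynomial.map_pow, Polynomial.map_X,
    Polynomial.map_C, Polynomial.eval_add, Polynomial.eval_mul, Polynomial.eval_pow,
    Polynomial.eval_X, Polynomial.eval_C] at h
  simp only [map_add, map_neg, map_ofNat] at h
  have tg := t2L_mul_g2L
  have hg2 : t2L ^ 2 * g2L ^ 2 = 4096 ^ 2 := by rw [← mul_pow, tg]
  have hg3 : t2L ^ 3 * g2L ^ 3 = 4096 ^ 3 := by rw [← mul_pow, tg]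
  have key : (16777216 : LaurentSeries ℤ) * (qExpand ℤ 2 (jqModC ℤ) * t2L) =
      16777216 * (t2L + 16) ^ 3 := by
    linear_combination (-t2L ^ 3) * h + hg3 + (768 - qExpand ℤ 2 (jqModC ℤ)) * t2L * hg2 +
      196608 * t2L ^ 2 * tg
  have hne : (16777216 : LaurentSeries ℤ) ≠ 0 := by
    have := ofNat_ne_zero_laurent 16777216 (by norm_num)
    simpa using this
  exact mul_left_cancel₀ hne key

end Fermat.Agent.S18.H143
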